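import Fermat.Agent.S22_EE
import Fermat.Prelude.Thm_Subgroup_IsArithmetic_exists_nat_mem_strictPeriods_conj

set_option autoImplicit false

open Complex Filter Topology
open UpperHalfPlane hiding I
open scoped Real Manifold ModularForm MatrixGroups Pointwise

namespace Fermat.Agent.S22

/-- A rational translate `f ∣[k] δ` of a cusp form on `Γ₀(N)` is holomorphic, vanishes at `i∞`
and is periodic with a positive integer period. -/
theorem dec_slash_cuspForm {N : ℕ} [NeZero N] {k : ℤ}
    (f : CuspForm (CongruenceSubgroup.Gamma0 N) k) (δ : GL (Fin 2) ℚ) :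
    Dec (⇑f ∣[k] (rmap δ)) := by
  have harith : (ConjAct.toConjAct (rmap δ)⁻¹ •
      ((CongruenceSubgroup.Gamma0 N : Subgroup SL(2, ℤ)) : Subgroup (GL (Fin 2) ℝ))).IsArithmetic := by
    have h := Subgroup.IsArithmetic.conj
      ((CongruenceSubgroup.Gamma0 N : Subgroup SL(2, ℤ)) : Subgroup (GL (Fin 2) ℝ)) δ⁻¹
    rwa [map_inv] at h
  obtain ⟨M, hM, hper⟩ := Subgroup.IsArithmetic.exists_nat_mem_strictPeriods_conj
    (ConjAct.toConjAct (rmap δ)⁻¹ •
      ((CongruenceSubgroup.Gamma0 N : Subgroup SL(2, ℤ)) : Subgroup (GL (Fin 2) ℝ)))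
  have h1 := hper 1
  rw [map_one, map_one, one_smul] at h1
  refine ⟨(CuspForm.translate f (rmap δ)).holo',
    CuspFormClass.zero_at_infty (CuspForm.translate f (rmap δ)), M, hM, ?_⟩
  exact SlashInvariantFormClass.periodic_comp_ofComplex (CuspForm.translate f (rmap δ)) h1

end Fermat.Agent.S22
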