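import Mathlib.NumberTheory.ModularForms.QExpansion
import Mathlib.NumberTheory.ModularForms.CongruenceSubgroups
import Mathlib.NumberTheory.ModularForms.BoundedAtCusp
import Fermat.Prelude.Def_CuspForm_HeckeAlgebra
import Fermat.Prelude.Thm_ModularForm_sturm_bound_Gamma0

set_option autoImplicit false

namespace Fermat.Agent.S22

open UpperHalfPlane ModularForm CongruenceSubgroup Matrix.SpecialLinearGroup
open scoped MatrixGroups ModularForm Manifold

/-- A cusp form of weight `k ≤ 0` on `Γ₀(N)` vanishes (Sturm bound: only `a₀` matters). -/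
theorem cuspForm_eq_zero_of_weight_nonpos {N : ℕ} [NeZero N] {k : ℤ} (hk : k ≤ 0)
    (f : CuspForm (Gamma0 N) k) : f = 0 := by
  have h0 : (ModularFormClass.modularForm f : ModularForm (Gamma0 N) k) = 0 := by
    refine ModularForm.sturm_bound_Gamma0 N _ ?_
    intro n hn
    have hle : k * ((Gamma0 N).index : ℤ) ≤ 0 :=
      mul_nonpos_of_nonpos_of_nonneg hk (Int.natCast_nonneg _)
    have h12 : (k * ((Gamma0 N).index : ℤ)).toNat / 12 = 0 := by
      rw [Int.toNat_of_nonpos hle]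
    rw [h12] at hn
    have hn0 : n = 0 := Nat.le_zero.mp hn
    subst hn0
    exact CuspFormClass.qExpansion_coeff_zero f one_pos (by simp)
  ext z
  have := congrArg (fun g : ModularForm (Gamma0 N) k => (g : ℍ → ℂ) z) h0
  simpa using this

/-- `-1 ∈ Γ₀(N)`. -/
theorem neg_one_mem_Gamma0 (N : ℕ) : (-1 : SL(2, ℤ)) ∈ Gamma0 N := by
  simp [Gamma0_mem]

/-- A cusp form of odd weight on `Γ₀(N)` vanishes (`-1 ∈ Γ₀(N)`). -/
theorem cuspForm_eq_zero_of_odd {N : ℕ} {k : ℤ} (hk : Odd k)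
    (f : CuspForm (Gamma0 N) k) : f = 0 := by
  ext z
  have hmem : (mapGL ℝ (-1 : SL(2, ℤ))) ∈ (Gamma0 N).map (mapGL ℝ) :=
    Subgroup.mem_map_of_mem _ (neg_one_mem_Gamma0 N)
  have h1 : (f : ℍ → ℂ) ∣[k] (-1 : SL(2, ℤ)) = f :=
    SlashInvariantFormClass.slash_action_eq f _ hmem
  have h2 := (ModularForm.slash_action_eq'_iff k (f : ℍ → ℂ) (-1 : SL(2, ℤ)) z).mp
    (congrFun h1 z)
  have h3 : ((-1 : SL(2, ℤ)) • z : ℍ) = z := by
    ext
    simp
  rw [h3] at h2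
  have h4 : (((-1 : SL(2, ℤ)) 1 0 : ℤ) : ℂ) * (z : ℂ) + (((-1 : SL(2, ℤ)) 1 1 : ℤ) : ℂ) = -1 := by
    simp
  rw [h4, hk.neg_one_zpow] at h2
  have h5 : (2 : ℂ) * f z = 0 := by linear_combination h2
  simpa using h5

/-- If every cusp form of weight `k` on `Γ₀(N)` vanishes, the Hecke algebra is trivially a
finite `ℤ`-module. -/
theorem finite_heckeAlgebra_of_forall_eq_zero {N : ℕ} [NeZero N] {k : ℤ} (S : Set ℕ)
    (h : ∀ f : CuspForm (Gamma0 N) k, f = 0) :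
    Module.Finite ℤ (CuspForm.heckeAlgebra N k S) := by
  have : Subsingleton (CuspForm (Gamma0 N) k) := ⟨fun f g => by rw [h f, h g]⟩
  have : Subsingleton (Module.End ℂ (CuspForm (Gamma0 N) k)) :=
    ⟨fun a b => LinearMap.ext fun x => Subsingleton.elim _ _⟩
  have : Subsingleton (CuspForm.heckeAlgebra N k S) :=
    ⟨fun a b => Subtype.ext (Subsingleton.elim _ _)⟩
  exact Module.Finite.of_finite

theorem finite_heckeAlgebra_of_weight_nonpos {N : ℕ} [NeZero N] {k : ℤ} (hk : k ≤ 0)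
    (S : Set ℕ) : Module.Finite ℤ (CuspForm.heckeAlgebra N k S) :=
  finite_heckeAlgebra_of_forall_eq_zero S (cuspForm_eq_zero_of_weight_nonpos hk)

theorem finite_heckeAlgebra_of_odd {N : ℕ} [NeZero N] {k : ℤ} (hk : Odd k)
    (S : Set ℕ) : Module.Finite ℤ (CuspForm.heckeAlgebra N k S) :=
  finite_heckeAlgebra_of_forall_eq_zero S (cuspForm_eq_zero_of_odd hk)

/-- Every cusp of `Γ₀(N)` is a cusp of `SL(2, ℤ)`. -/
theorem isCusp_SL2Z_of_isCusp_Gamma0 {N : ℕ} {c : OnePoint ℝ}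
    (hc : IsCusp c ((Gamma0 N).map (mapGL ℝ))) : IsCusp c 𝒮ℒ := by
  refine hc.mono ?_
  rintro _ ⟨g, -, rfl⟩
  exact ⟨g, rfl⟩

/-- Build a cusp form on `Γ₀(N)` from a holomorphic function on `ℍ` that is slash-invariant
under `Γ₀(N)` and such that every `SL(2, ℤ)`-translate tends to zero at `i∞`. -/
noncomputable def mkCuspForm {N : ℕ} {w : ℤ} (H : ℍ → ℂ) (hol : MDiff H)
    (hinv : ∀ γ ∈ Gamma0 N, H ∣[w] γ = H)
    (hzero : ∀ g : SL(2, ℤ), IsZeroAtImInfty (H ∣[w] g)) : CuspForm (Gamma0 N) w where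
  toFun := H
  slash_action_eq' := by
    rintro _ ⟨γ, hγ, rfl⟩
    exact hinv γ hγ
  holo' := hol
  zero_at_cusps' := fun {c} hc =>
    (OnePoint.isZeroAt_iff_forall_SL2Z (isCusp_SL2Z_of_isCusp_Gamma0 hc)).mpr
      fun g _ => hzero g

@[simp] theorem coe_mkCuspForm {N : ℕ} {w : ℤ} (H : ℍ → ℂ) (hol : MDiff H)
    (hinv : ∀ γ ∈ Gamma0 N, H ∣[w] γ = H)
    (hzero : ∀ g : SL(2, ℤ), IsZeroAtImInfty (H ∣[w] g)) :
    (mkCuspForm H hol hinv hzero : ℍ → ℂ) = H := rfl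

/-- **Sturm at weight `≤ 0`**: a holomorphic function on `ℍ`, slash-invariant of weight
`w ≤ 0` under `Γ₀(N)`, all of whose `SL(2, ℤ)`-translates tend to `0` at `i∞`, vanishes. -/
theorem eq_zero_of_slash_invariant_of_weight_nonpos {N : ℕ} [NeZero N] {w : ℤ} (hw : w ≤ 0)
    (H : ℍ → ℂ) (hol : MDiff H)
    (hinv : ∀ γ ∈ Gamma0 N, H ∣[w] γ = H)
    (hzero : ∀ g : SL(2, ℤ), IsZeroAtImInfty (H ∣[w] g)) : H = 0 := by
  have h := cuspForm_eq_zero_of_weight_nonpos hw (mkCuspForm H hol hinv hzero)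
  have h' := congrArg (fun f : CuspForm (Gamma0 N) w => (f : ℍ → ℂ)) h
  simpa using h'

/-- Build a modular form on `Γ₀(N)` from a holomorphic function on `ℍ` that is slash-invariant
under `Γ₀(N)` and such that every `SL(2, ℤ)`-translate is bounded at `i∞`. -/
noncomputable def mkModularForm {N : ℕ} {w : ℤ} (H : ℍ → ℂ) (hol : MDiff H)
    (hinv : ∀ γ ∈ Gamma0 N, H ∣[w] γ = H)
    (hbdd : ∀ g : SL(2, ℤ), IsBoundedAtImInfty (H ∣[w] g)) : ModularForm (Gamma0 N) w where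
  toFun := H
  slash_action_eq' := by
    rintro _ ⟨γ, hγ, rfl⟩
    exact hinv γ hγ
  holo' := hol
  bdd_at_cusps' := fun {c} hc =>
    (OnePoint.isBoundedAt_iff_forall_SL2Z (isCusp_SL2Z_of_isCusp_Gamma0 hc)).mpr
      fun g _ => hbdd g

@[simp] theorem coe_mkModularForm {N : ℕ} {w : ℤ} (H : ℍ → ℂ) (hol : MDiff H)
    (hinv : ∀ γ ∈ Gamma0 N, H ∣[w] γ = H)
    (hbdd : ∀ g : SL(2, ℤ), IsBoundedAtImInfty (H ∣[w] g)) :
    (mkModularForm H hol hinv hbdd : ℍ → ℂ) = H := rfl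

/-- **Sturm at weight `≤ 0`, bounded version**: a holomorphic function on `ℍ`, slash-invariant
of weight `w ≤ 0` under `Γ₀(N)`, all of whose `SL(2, ℤ)`-translates are bounded at `i∞`,
and which itself tends to `0` at `i∞`, vanishes. -/
theorem eq_zero_of_slash_invariant_of_weight_nonpos' {N : ℕ} [NeZero N] {w : ℤ} (hw : w ≤ 0)
    (H : ℍ → ℂ) (hol : MDiff H)
    (hinv : ∀ γ ∈ Gamma0 N, H ∣[w] γ = H)
    (hbdd : ∀ g : SL(2, ℤ), IsBoundedAtImInfty (H ∣[w] g))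
    (hzero : IsZeroAtImInfty H) : H = 0 := by
  have h0 : mkModularForm H hol hinv hbdd = 0 := by
    refine ModularForm.sturm_bound_Gamma0 N _ ?_
    intro n hn
    have hle : w * ((Gamma0 N).index : ℤ) ≤ 0 :=
      mul_nonpos_of_nonpos_of_nonneg hw (Int.natCast_nonneg _)
    have h12 : (w * ((Gamma0 N).index : ℤ)).toNat / 12 = 0 := by
      rw [Int.toNat_of_nonpos hle]
    rw [h12] at hn
    have hn0 : n = 0 := Nat.le_zero.mp hn
    subst hn0
    rw [coe_mkModularForm]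
    simp [UpperHalfPlane.qExpansion_coeff, hzero.cuspFunction_apply_zero one_pos]
  have h' := congrArg (fun f : ModularForm (Gamma0 N) w => (f : ℍ → ℂ)) h0
  simpa using h'

end Fermat.Agent.S22
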