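import Fermat.Agent.S22_LatDef

set_option autoImplicit false

open Complex Filter Topology MvPolynomial
open UpperHalfPlane hiding I
open scoped Real Manifold ModularForm MatrixGroups

namespace Fermat.Agent.S22

/-- Stability of the symbol lattice under composition with a linear operator follows from
stability on the generators. -/
theorem latHecke_comp_mem (N : ℕ) [NeZero N] (n : ℕ)
    (T : CuspForm (CongruenceSubgroup.Gamma0 N) ((n : ℤ) + 2) →ₗ[ℂ]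
      CuspForm (CongruenceSubgroup.Gamma0 N) ((n : ℤ) + 2))
    (h : ∀ (δ δ' : GL (Fin 2) ℚ) (hδ : 0 < δ.det.val) (hδ' : 0 < δ'.det.val) (v : Fin 2 → ℤ),
      mu N n δ δ' hδ hδ' v ∘ₗ T ∈ symL N n)
    (l : Module.Dual ℂ (CuspForm (CongruenceSubgroup.Gamma0 N) ((n : ℤ) + 2)))
    (hl : l ∈ symL N n) : l ∘ₗ T ∈ symL N n := by
  unfold symL at hl
  induction hl using Submodule.span_induction with
  | mem x hx =>
    obtain ⟨δ, δ', hδ, hδ', v, rfl⟩ := hx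
    exact h δ δ' hδ hδ' v
  | zero =>
    rw [LinearMap.zero_comp]
    exact zero_mem _
  | add x y _ _ hx hy =>
    rw [LinearMap.add_comp]
    exact add_mem hx hy
  | smul a x _ hx =>
    have e : (a • x) ∘ₗ T = a • (x ∘ₗ T) := by
      ext f
      simp
    rw [e]
    exact Submodule.smul_mem _ a hx

theorem latHecke_Cc_zero {k : ℤ} {φ : ℍ → ℂ} (h : Cc k φ) : Cc k (0 : ℍ → ℂ) := by
  have := h.const_smul 0
  rwa [zero_smul] at this

theorem latHecke_Lam_zero {n : ℕ} {φ : ℍ → ℂ} (h : Cc ((n : ℤ) + 2) φ)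
    {δ δ' : GL (Fin 2) ℚ} (hδ : 0 < δ.det.val) (hδ' : 0 < δ'.det.val) :
    Lam n (0 : ℍ → ℂ) δ δ' = 0 := by
  have := Lam_const_smul h 0 hδ hδ'
  rwa [zero_smul, zero_smul] at this

theorem latHecke_Cc_sum {k : ℤ} {φ₀ : ℍ → ℂ} (h₀ : Cc k φ₀) {ι : Type*} (s : Finset ι)
    (φ : ι → ℍ → ℂ) (hφ : ∀ j ∈ s, Cc k (φ j)) : Cc k (∑ j ∈ s, φ j) := by
  classical
  induction s using Finset.induction_on with
  | empty =>
    rw [Finset.sum_empty]
    exact latHecke_Cc_zero h₀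
  | insert a s ha ih =>
    rw [Finset.sum_insert ha]
    exact (hφ a (Finset.mem_insert_self a s)).add
      (ih fun j hj => hφ j (Finset.mem_insert_of_mem hj))

theorem latHecke_Lam_sum {n : ℕ} {φ₀ : ℍ → ℂ} (h₀ : Cc ((n : ℤ) + 2) φ₀) {ι : Type*}
    (s : Finset ι) (φ : ι → ℍ → ℂ) (hφ : ∀ j ∈ s, Cc ((n : ℤ) + 2) (φ j))
    {δ δ' : GL (Fin 2) ℚ} (hδ : 0 < δ.det.val) (hδ' : 0 < δ'.det.val) :
    Lam n (∑ j ∈ s, φ j) δ δ' = ∑ j ∈ s, Lam n (φ j) δ δ' := by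
  classical
  induction s using Finset.induction_on with
  | empty =>
    rw [Finset.sum_empty, Finset.sum_empty]
    exact latHecke_Lam_zero h₀ hδ hδ'
  | insert a s ha ih =>
    have hs : ∀ j ∈ s, Cc ((n : ℤ) + 2) (φ j) := fun j hj => hφ j (Finset.mem_insert_of_mem hj)
    rw [Finset.sum_insert ha, Finset.sum_insert ha,
      Lam_add_left (hφ a (Finset.mem_insert_self a s)) (latHecke_Cc_sum h₀ s φ hs) hδ hδ', ih hs]

/-- The value of a symbol of a rational translate of a cusp form at an integral point is the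
value of a generator of the symbol lattice. -/
theorem latHecke_eval_slash (N : ℕ) [NeZero N] (n : ℕ) {α : GL (Fin 2) ℚ}
    (hα : 0 < α.det.val) (hint : ∀ a b, ∃ m : ℤ, α a b = (m : ℚ)) (δ δ' : GL (Fin 2) ℚ)
    (hδ : 0 < δ.det.val) (hδ' : 0 < δ'.det.val) (v : Fin 2 → ℤ) :
    ∃ μ ∈ symL N n, ∀ f : CuspForm (CongruenceSubgroup.Gamma0 N) ((n : ℤ) + 2),
      eval (fun i => (v i : ℂ)) (Lam n (⇑f ∣[(n : ℤ) + 2] rmap α) δ δ') = μ f := by
  obtain ⟨w, hw⟩ := mulVecC_int hint v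
  refine ⟨mu N n (α * δ) (α * δ') (det_mul_pos hα hδ) (det_mul_pos hα hδ') w,
    mu_mem_symL N n _ _ _ _ w, fun f => ?_⟩
  rw [Lam_slash (cc_cuspForm f) hα hδ hδ', eval_subst, hw, mu_apply]

theorem symL_heckeT (N : ℕ) [NeZero N] (n : ℕ) {p : ℕ} (hp : p.Prime) (hpN : ¬ p ∣ N)
    (l : Module.Dual ℂ (CuspForm (CongruenceSubgroup.Gamma0 N) ((n : ℤ) + 2)))
    (hl : l ∈ symL N n) : l ∘ₗ CuspForm.heckeTLin ((n : ℤ) + 2) hp hpN ∈ symL N n := by
  refine latHecke_comp_mem N n _ (fun δ δ' hδ hδ' v => ?_) l hl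
  choose α hα hαm hαint using fun j : ℕ => exists_heckeMatrix_rat hp.ne_zero j
  obtain ⟨β, hβ, hβm, hβint⟩ := exists_heckeDiagMatrix_rat hp.ne_zero
  choose μ hμ hμf using fun j : ℕ => latHecke_eval_slash N n (hα j) (hαint j) δ δ' hδ hδ' v
  obtain ⟨ν, hν, hνf⟩ := latHecke_eval_slash N n hβ hβint δ δ' hδ hδ' v
  have e : mu N n δ δ' hδ hδ' v ∘ₗ CuspForm.heckeTLin ((n : ℤ) + 2) hp hpN =
      ∑ j ∈ Finset.range p, μ j + ν := by
    ext f
    have hc : ∀ j ∈ Finset.range p, Cc ((n : ℤ) + 2) (⇑f ∣[(n : ℤ) + 2] rmap (α j)) :=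
      fun j _ => (cc_cuspForm f).slash (hα j)
    rw [LinearMap.comp_apply, mu_apply, coe_heckeTLin, LinearMap.add_apply,
      LinearMap.sum_apply]
    simp only [← hαm, ← hβm]
    rw [Lam_add_left (latHecke_Cc_sum (cc_cuspForm f) _ _ hc) ((cc_cuspForm f).slash hβ) hδ hδ',
      latHecke_Lam_sum (cc_cuspForm f) _ _ hc hδ hδ', map_add, map_sum, hνf]
    congr 1
    exact Finset.sum_congr rfl fun j _ => hμf j f
  rw [e]
  exact add_mem (sum_mem fun j _ => hμ j) hν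

theorem symL_heckeU (N : ℕ) [NeZero N] (n : ℕ) {p : ℕ} (hp : p.Prime) (hpN : p ∣ N)
    (l : Module.Dual ℂ (CuspForm (CongruenceSubgroup.Gamma0 N) ((n : ℤ) + 2)))
    (hl : l ∈ symL N n) : l ∘ₗ CuspForm.heckeULin ((n : ℤ) + 2) hpN ∈ symL N n := by
  refine latHecke_comp_mem N n _ (fun δ δ' hδ hδ' v => ?_) l hl
  choose α hα hαm hαint using fun j : ℕ => exists_heckeMatrix_rat hp.ne_zero j
  choose μ hμ hμf using fun j : ℕ => latHecke_eval_slash N n (hα j) (hαint j) δ δ' hδ hδ' v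
  have e : mu N n δ δ' hδ hδ' v ∘ₗ CuspForm.heckeULin ((n : ℤ) + 2) hpN =
      ∑ j ∈ Finset.range p, μ j := by
    ext f
    have hc : ∀ j ∈ Finset.range p, Cc ((n : ℤ) + 2) (⇑f ∣[(n : ℤ) + 2] rmap (α j)) :=
      fun j _ => (cc_cuspForm f).slash (hα j)
    rw [LinearMap.comp_apply, mu_apply, coe_heckeULin, LinearMap.sum_apply]
    simp only [← hαm]
    rw [latHecke_Lam_sum (cc_cuspForm f) _ _ hc hδ hδ', map_sum]
    exact Finset.sum_congr rfl fun j _ => hμf j f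
  rw [e]
  exact sum_mem fun j _ => hμ j

end Fermat.Agent.S22
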