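import Fermat.Agent.S22_LatDef

set_option autoImplicit false

open Complex Filter Topology MvPolynomial
open UpperHalfPlane hiding I
open scoped Real Manifold ModularForm MatrixGroups

namespace Fermat.Agent.S22

/-- If every functional of the lattice of modular symbols kills `f`, all modular symbols of `f`
vanish. -/
theorem latSep_Lam_eq_zero (N : ℕ) [NeZero N] (n : ℕ)
    (f : CuspForm (CongruenceSubgroup.Gamma0 N) ((n : ℤ) + 2))
    (h : ∀ l ∈ symL N n, l f = 0) (δ δ' : GL (Fin 2) ℚ) (hδ : 0 < δ.det.val)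
    (hδ' : 0 < δ'.det.val) : Lam n ⇑f δ δ' = 0 := by
  apply eq_zero_of_forall_eval_int
  intro v
  have h1 := h _ (mu_mem_symL N n δ δ' hδ hδ' v)
  rwa [mu_apply] at h1

theorem latSep_det_mapGL_pos (g : SL(2, ℤ)) :
    0 < (Matrix.SpecialLinearGroup.mapGL ℚ g).det.val := by
  simp

/-- If all modular symbols of `f` vanish, the normalised primitives at all cusps agree. -/
theorem latSep_Fp_eq (N : ℕ) [NeZero N] (n : ℕ)
    (f : CuspForm (CongruenceSubgroup.Gamma0 N) ((n : ℤ) + 2))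
    (h : ∀ l ∈ symL N n, l f = 0) (g : SL(2, ℤ)) :
    Fp n ⇑f (Matrix.SpecialLinearGroup.mapGL ℚ g) = Fp n ⇑f 1 := by
  funext τ
  have h1 : (0 : ℚ) < (1 : GL (Fin 2) ℚ).det.val := by simp
  have h2 := Fp_sub_eq_Lam (cc_cuspForm f) (latSep_det_mapGL_pos g) h1 τ
  rw [latSep_Lam_eq_zero N n f h _ _ (latSep_det_mapGL_pos g) h1, sub_eq_zero] at h2
  exact h2

theorem symL_sep (N : ℕ) [NeZero N] (n : ℕ)
    (f : CuspForm (CongruenceSubgroup.Gamma0 N) ((n : ℤ) + 2))
    (h : ∀ l ∈ symL N n, l f = 0) : f = 0 := by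
  apply eq_zero_of_EE_equivariant n f
  · intro g
    have h1 := dec_slash_cuspForm f (Matrix.SpecialLinearGroup.mapGL ℚ g)
    rwa [rmap_mapGL] at h1
  · intro g
    have h1 := latSep_Fp_eq N n f h g
    unfold Fp at h1
    rw [rmap_mapGL, map_one, inv_one, act_one, SlashAction.slash_one] at h1
    rw [← h1, act_act, inv_mul_cancel, act_one]

end Fermat.Agent.S22
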