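/-
S22 team, package (c): the final algebra step.

If a set `𝒯` of endomorphisms of a vector space `V` (over a field `K`) preserves, via
precomposition, a finitely generated `ℤ`-submodule `L` of the dual `Module.Dual K V` which
separates the points of `V`, then the `ℤ`-algebra generated by `𝒯` is a finite `ℤ`-module.
-/
import Mathlib.RingTheory.Adjoin.Basic
import Mathlib.RingTheory.Noetherian.Basic
import Mathlib.RingTheory.PrincipalIdealDomain
import Mathlib.RingTheory.Finiteness.Basic
import Mathlib.LinearAlgebra.Dual.Defs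
import Mathlib.Algebra.Module.Submodule.Pointwise
import Fermat.Prelude.Def_CuspForm_HeckeAlgebra

set_option autoImplicit false

namespace Fermat.Agent.S22

section Abstract

variable {K V : Type*} [Field K] [AddCommGroup V] [Module K V]

/-- The set of endomorphisms `t` of `V` such that precomposition with `t` preserves `L`,
as a `ℤ`-subalgebra of `Module.End K V`. -/
def stabSubalgebra (L : Submodule ℤ (Module.Dual K V)) : Subalgebra ℤ (Module.End K V) where
  carrier := {t | ∀ φ ∈ L, φ.comp t ∈ L}
  mul_mem' := by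
    intro a b ha hb φ hφ
    have h := hb _ (ha φ hφ)
    simpa [Module.End.mul_eq_comp, LinearMap.comp_assoc] using h
  one_mem' := by
    intro φ hφ
    simpa [Module.End.one_eq_id] using hφ
  add_mem' := by
    intro a b ha hb φ hφ
    rw [LinearMap.comp_add]
    exact L.add_mem (ha φ hφ) (hb φ hφ)
  zero_mem' := by
    intro φ _
    rw [LinearMap.comp_zero]
    exact L.zero_mem
  algebraMap_mem' := by
    intro n φ hφ
    have h : φ.comp (algebraMap ℤ (Module.End K V) n) = n • φ := by
      ext v
      simp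
    rw [h]
    exact L.smul_mem n hφ

theorem mem_stabSubalgebra {L : Submodule ℤ (Module.Dual K V)} {t : Module.End K V} :
    t ∈ stabSubalgebra L ↔ ∀ φ ∈ L, φ.comp t ∈ L := Iff.rfl

/-- If every generator preserves `L`, so does every element of the generated `ℤ`-algebra. -/
theorem comp_mem_of_mem_adjoin {𝒯 : Set (Module.End K V)} {L : Submodule ℤ (Module.Dual K V)}
    (hstab : ∀ T ∈ 𝒯, ∀ φ ∈ L, φ.comp T ∈ L) {t : Module.End K V}
    (ht : t ∈ Algebra.adjoin ℤ 𝒯) {φ : Module.Dual K V} (hφ : φ ∈ L) : φ.comp t ∈ L := by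
  have hle : Algebra.adjoin ℤ 𝒯 ≤ stabSubalgebra L := Algebra.adjoin_le fun T hT => hstab T hT
  exact hle ht φ hφ

/-- **Final algebra step.** A set of endomorphisms whose transposes preserve a finitely generated
point-separating `ℤ`-lattice in the dual generates a `ℤ`-algebra that is a finite `ℤ`-module. -/
theorem finite_adjoin_of_stable_lattice (𝒯 : Set (Module.End K V))
    (L : Submodule ℤ (Module.Dual K V)) (hfg : L.FG)
    (hsep : ∀ v : V, (∀ φ ∈ L, φ v = 0) → v = 0)
    (hstab : ∀ T ∈ 𝒯, ∀ φ ∈ L, φ.comp T ∈ L) :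
    Module.Finite ℤ (Algebra.adjoin ℤ 𝒯) := by
  classical
  obtain ⟨s, hs⟩ := hfg
  have : Module.Finite ℤ L := Module.Finite.iff_fg.mpr ⟨s, hs⟩
  -- the `ℤ`-linear map `t ↦ (φ ↦ φ ∘ t)` restricted to the generators
  let Ψ : (Algebra.adjoin ℤ 𝒯) →ₗ[ℤ] ({φ // φ ∈ s} → L) :=
    { toFun := fun t φ => ⟨(φ : Module.Dual K V).comp (t : Module.End K V),
        comp_mem_of_mem_adjoin hstab t.2 (hs ▸ Submodule.subset_span φ.2)⟩
      map_add' := by
        intro a b
        funext φ
        apply Subtype.ext
        simp [LinearMap.comp_add]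
      map_smul' := by
        intro n a
        funext φ
        apply Subtype.ext
        show (φ : Module.Dual K V).comp ((n • a : Algebra.adjoin ℤ 𝒯) : Module.End K V) =
          n • (φ : Module.Dual K V).comp (a : Module.End K V)
        ext v
        simp only [SetLike.val_smul, LinearMap.comp_apply, LinearMap.smul_apply, map_zsmul] }
  have hΨ : Function.Injective Ψ := by
    rw [injective_iff_map_eq_zero]
    intro t ht
    apply Subtype.ext
    have h0 : ∀ φ ∈ s, (φ : Module.Dual K V).comp (t : Module.End K V) = 0 := by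
      intro φ hφ
      have := congrArg Subtype.val (congrFun ht ⟨φ, hφ⟩)
      simpa [Ψ] using this
    have h1 : ∀ φ ∈ L, (φ : Module.Dual K V).comp (t : Module.End K V) = 0 := by
      intro φ hφ
      rw [← hs] at hφ
      induction hφ using Submodule.span_induction with
      | mem x hx => exact h0 x hx
      | zero => simp
      | add x y _ _ hx hy => rw [LinearMap.add_comp, hx, hy, add_zero]
      | smul n x _ hx => rw [LinearMap.smul_comp, hx, smul_zero]
    ext v
    simp only [ZeroMemClass.coe_zero, LinearMap.zero_apply]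
    apply hsep
    intro φ hφ
    have := LinearMap.congr_fun (h1 φ hφ) v
    simpa using this
  exact Module.Finite.of_injective Ψ hΨ

/-- Variant with the lattice given by a finite spanning family of functionals. -/
theorem finite_adjoin_of_stable_span {ι : Type*} [Finite ι] (𝒯 : Set (Module.End K V))
    (w : ι → Module.Dual K V)
    (hsep : ∀ v : V, (∀ i, w i v = 0) → v = 0)
    (hstab : ∀ T ∈ 𝒯, ∀ i, (w i).comp T ∈ Submodule.span ℤ (Set.range w)) :
    Module.Finite ℤ (Algebra.adjoin ℤ 𝒯) := by
  refine finite_adjoin_of_stable_lattice 𝒯 (Submodule.span ℤ (Set.range w))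
    (Submodule.fg_span (Set.finite_range w)) ?_ ?_
  · intro v hv
    exact hsep v fun i => hv _ (Submodule.subset_span ⟨i, rfl⟩)
  · intro T hT φ hφ
    induction hφ using Submodule.span_induction with
    | mem x hx =>
      obtain ⟨i, rfl⟩ := hx
      exact hstab T hT i
    | zero => simp
    | add x y _ _ hx hy =>
      rw [LinearMap.add_comp]
      exact Submodule.add_mem _ hx hy
    | smul n x _ hx =>
      rw [LinearMap.smul_comp]
      exact Submodule.smul_mem _ n hx

end Abstract

section Hecke

open CuspForm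

/-- The S22 reduction: it suffices to produce a finitely generated, point-separating
`ℤ`-submodule of the dual of the space of cusp forms which is stable under the transposes of the
Hecke generators `T_ℓ` (`ℓ ∤ N`, `ℓ ∉ S`) and `U_q` (`q ∣ N`, `q ∉ S`). -/
theorem finite_heckeAlgebra_of_stable_lattice (N : ℕ) [NeZero N] (k : ℤ) (S : Set ℕ)
    (L : Submodule ℤ (Module.Dual ℂ (CuspForm (CongruenceSubgroup.Gamma0 N) k)))
    (hfg : L.FG)
    (hsep : ∀ f : CuspForm (CongruenceSubgroup.Gamma0 N) k, (∀ φ ∈ L, φ f = 0) → f = 0)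
    (hT : ∀ (ℓ : ℕ) (hℓ : ℓ.Prime) (hℓN : ¬ ℓ ∣ N), ℓ ∉ S →
      ∀ φ ∈ L, φ.comp (heckeTLin k hℓ hℓN) ∈ L)
    (hU : ∀ (q : ℕ) (hqN : q ∣ N), q.Prime → q ∉ S →
      ∀ φ ∈ L, φ.comp (heckeULin k hqN) ∈ L) :
    Module.Finite ℤ (CuspForm.heckeAlgebra N k S) := by
  refine finite_adjoin_of_stable_lattice (heckeGenerators N k S) L hfg hsep ?_
  rintro T (⟨ℓ, hℓ, hℓN, hℓS, rfl⟩ | ⟨q, hqN, hq, hqS, rfl⟩) φ hφ
  · exact hT ℓ hℓ hℓN hℓS φ hφ
  · exact hU q hqN hq hqS φ hφ

/-- If the space of cusp forms is trivial, the Hecke algebra is a finite `ℤ`-module. -/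
theorem finite_heckeAlgebra_of_subsingleton (N : ℕ) [NeZero N] (k : ℤ) (S : Set ℕ)
    [Subsingleton (CuspForm (CongruenceSubgroup.Gamma0 N) k)] :
    Module.Finite ℤ (CuspForm.heckeAlgebra N k S) := by
  refine finite_heckeAlgebra_of_stable_lattice N k S ⊥ Submodule.fg_bot ?_ ?_ ?_
  · intro f _
    exact Subsingleton.elim _ _
  · intro ℓ hℓ hℓN _ φ hφ
    rw [Submodule.mem_bot] at hφ ⊢
    rw [hφ, LinearMap.zero_comp]
  · intro q hqN _ _ φ hφ
    rw [Submodule.mem_bot] at hφ ⊢
    rw [hφ, LinearMap.zero_comp]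

end Hecke

end Fermat.Agent.S22
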