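import Mathlib.GroupTheory.Schreier
import Mathlib.LinearAlgebra.Matrix.FixedDetMatrices
import Mathlib.NumberTheory.ModularForms.CongruenceSubgroups

set_option autoImplicit false

open scoped MatrixGroups

namespace Fermat.Agent.S22

/-- Chain argument over the generators `S`, `T` of `SL(2, ℤ)`: an additive symbol whose values on
the "edges" `(g, g * S)` and `(g, g * T)` lie in an additive subgroup has all its values there. -/
theorem chain_SL2Z {A : Type*} [AddCommGroup A] (Lam : SL(2, ℤ) → SL(2, ℤ) → A)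
    (hadd : ∀ g g' g'', Lam g g' + Lam g' g'' = Lam g g'')
    (𝒮 : AddSubgroup A)
    (hS : ∀ g, Lam g (g * ModularGroup.S) ∈ 𝒮) (hT : ∀ g, Lam g (g * ModularGroup.T) ∈ 𝒮) :
    ∀ g g', Lam g g' ∈ 𝒮 := by
  -- `Lam g g = 0`
  have hrefl : ∀ g, Lam g g = 0 := by
    intro g
    have h := hadd g g g
    exact add_eq_left.mp h
  -- antisymmetry
  have hsymm : ∀ g g', Lam g' g = - Lam g g' := by
    intro g g'
    have h := hadd g g' g
    rw [hrefl] at h
    exact eq_neg_of_add_eq_zero_right h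
  -- the subgroup of all `x` with `Lam g (g * x) ∈ 𝒮` for all `g`
  let H : Subgroup SL(2, ℤ) :=
    { carrier := {x | ∀ g, Lam g (g * x) ∈ 𝒮}
      one_mem' := fun g => by
        rw [mul_one, hrefl]
        exact 𝒮.zero_mem
      mul_mem' := fun {x y} hx hy g => by
        have h := hadd g (g * x) (g * x * y)
        rw [← mul_assoc, ← h]
        exact 𝒮.add_mem (hx g) (hy (g * x))
      inv_mem' := fun {x} hx g => by
        have h := hx (g * x⁻¹)
        rw [inv_mul_cancel_right] at h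
        rw [hsymm]
        exact 𝒮.neg_mem h }
  have hH : H = ⊤ := by
    rw [eq_top_iff, ← SpecialLinearGroup.SL2Z_generators, Subgroup.closure_le]
    rintro x (rfl | rfl)
    · exact hS
    · exact hT
  intro g g'
  have hx : g⁻¹ * g' ∈ H := by rw [hH]; exact Subgroup.mem_top _
  have := hx g
  rwa [mul_inv_cancel_left] at this

/-- Finitely many right coset representatives for `Γ₀(N)` in `SL(2, ℤ)`. -/
theorem exists_finite_coset_reps (N : ℕ) [NeZero N] :
    ∃ R : Finset SL(2, ℤ), ∀ g : SL(2, ℤ), ∃ γ ∈ CongruenceSubgroup.Gamma0 N, ∃ h ∈ R,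
      g = γ * h := by
  classical
  have hfin : (CongruenceSubgroup.Gamma0 N).FiniteIndex := inferInstance
  have : Finite (SL(2, ℤ) ⧸ CongruenceSubgroup.Gamma0 N) :=
    Subgroup.finite_quotient_of_finiteIndex
  have : Fintype (SL(2, ℤ) ⧸ CongruenceSubgroup.Gamma0 N) := Fintype.ofFinite _
  -- representatives of left cosets `x Γ`, inverted to get right cosets `Γ x⁻¹`
  refine ⟨Finset.univ.image
    (fun q : SL(2, ℤ) ⧸ CongruenceSubgroup.Gamma0 N => (Quotient.out q)⁻¹), fun g => ?_⟩
  set q : SL(2, ℤ) ⧸ CongruenceSubgroup.Gamma0 N := QuotientGroup.mk g⁻¹ with hq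
  have hmem : (Quotient.out q)⁻¹ * g⁻¹ ∈ CongruenceSubgroup.Gamma0 N := by
    have h1 : (QuotientGroup.mk (Quotient.out q) : SL(2, ℤ) ⧸ CongruenceSubgroup.Gamma0 N) =
        QuotientGroup.mk g⁻¹ := by
      rw [← hq]
      exact Quotient.out_eq q
    exact QuotientGroup.eq.mp h1
  refine ⟨((Quotient.out q)⁻¹ * g⁻¹)⁻¹, inv_mem hmem, (Quotient.out q)⁻¹,
    Finset.mem_image.mpr ⟨q, Finset.mem_univ _, rfl⟩, ?_⟩
  group

end Fermat.Agent.S22
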