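import Fermat.Agent.S22_EE

set_option autoImplicit false

open Complex Filter Topology MvPolynomial
open UpperHalfPlane hiding I
open scoped Real Manifold ModularForm

namespace Fermat.Agent.S22

theorem isHomogeneous_EE (n : ℕ) (ψ : ℍ → ℂ) (τ : ℍ) : (EE n ψ τ).IsHomogeneous n := by
  unfold EE
  refine IsHomogeneous.sum _ _ _ fun m hm => ?_
  have hm' : m ≤ n := Nat.lt_succ_iff.mp (Finset.mem_range.mp hm)
  have h1 : (C ((n.descFactorial m : ℂ) * prim^[m + 1] ψ τ) * X 1 ^ m :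
      MvPolynomial (Fin 2) ℂ).IsHomogeneous (0 + m) := by
    refine (isHomogeneous_C _ _).mul ?_
    simpa using (isHomogeneous_X ℂ (1 : Fin 2)).pow m
  have h2 : ((X 0 - C (τ : ℂ) * X 1) ^ (n - m) : MvPolynomial (Fin 2) ℂ).IsHomogeneous
      (1 * (n - m)) := by
    refine IsHomogeneous.pow ?_ (n - m)
    exact (isHomogeneous_X ℂ (0 : Fin 2)).sub (isHomogeneous_C_mul_X _ _)
  have h3 := h1.mul h2
  have e : 0 + m + 1 * (n - m) = n := by omega
  rw [e] at h3
  exact h3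

theorem EE_add {n : ℕ} {φ ψ : ℍ → ℂ} (h : Dec φ) (h' : Dec ψ) (τ : ℍ) :
    EE n (φ + ψ) τ = EE n φ τ + EE n ψ τ := by
  unfold EE
  rw [← Finset.sum_add_distrib]
  refine Finset.sum_congr rfl fun m _ => ?_
  rw [iterate_prim_add h h' (m + 1), Pi.add_apply, mul_add, C_add]
  ring

theorem EE_const_smul {n : ℕ} {φ : ℍ → ℂ} (h : Dec φ) (c : ℂ) (τ : ℍ) :
    EE n (c • φ) τ = c • EE n φ τ := by
  have e : (c • φ) = fun τ => c * φ τ := rfl
  unfold EE
  rw [Finset.smul_sum]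
  refine Finset.sum_congr rfl fun m _ => ?_
  rw [e, iterate_prim_const_mul h c (m + 1)]
  rw [smul_eq_C_mul]
  have : (C ((n.descFactorial m : ℂ) * (c * prim^[m + 1] φ τ)) : MvPolynomial (Fin 2) ℂ) =
      C c * C ((n.descFactorial m : ℂ) * prim^[m + 1] φ τ) := by
    rw [← C_mul]
    congr 1
    ring
  rw [this]
  ring

/-- Two primitives of the same function on `ℍ` differ by a constant. -/
theorem HasDerivH.sub_const {F F' f : ℍ → ℂ} (h : HasDerivH F f) (h' : HasDerivH F' f)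
    (τ τ' : ℍ) : F τ - F' τ = F τ' - F' τ' := by
  have hdiff : DifferentiableOn ℂ (F ∘ ofComplex - F' ∘ ofComplex) {z : ℂ | 0 < z.im} :=
    fun z hz => ((h ⟨z, hz⟩).sub (h' ⟨z, hz⟩)).differentiableAt.differentiableWithinAt
  have hconv : Convex ℝ {z : ℂ | 0 < z.im} := convex_halfSpace_im_gt 0
  have hzero : Set.EqOn (fderiv ℂ (F ∘ ofComplex - F' ∘ ofComplex)) 0 {z : ℂ | 0 < z.im} := by
    intro z hz
    have := ((h ⟨z, hz⟩).sub (h' ⟨z, hz⟩)).hasFDerivAt.fderiv
    simpa using this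
  have := isOpen_upperHalfPlaneSet.is_const_of_fderiv_eq_zero hconv.isPreconnected hdiff hzero
    τ.im_pos τ'.im_pos
  simpa using this

/-- uniqueness of polynomial-valued primitives up to a constant -/
theorem PrimP.sub_const {n : ℕ} {G G' : ℍ → MvPolynomial (Fin 2) ℂ} {ψ : ℍ → ℂ}
    (h : PrimP n G ψ) (h' : PrimP n G' ψ) (τ τ' : ℍ) : G τ - G' τ = G τ' - G' τ' := by
  apply MvPolynomial.funext
  intro v
  rw [map_sub, map_sub]
  exact (h v).sub_const (h' v) τ τ'

end Fermat.Agent.S22
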