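import Fermat.Agent.S22_EE
import Fermat.Prelude.Def_CuspForm_HeckeAlgebra

/-!
# S22, task T6: Hecke operators as sums of slashes + small glue
-/

set_option autoImplicit false

open Complex Filter Topology MvPolynomial
open UpperHalfPlane hiding I
open scoped Real Manifold ModularForm MatrixGroups

namespace Fermat.Agent.S22

theorem coe_heckeTLin {N : ℕ} {p : ℕ} (k : ℤ) (hp : p.Prime) (hpN : ¬ p ∣ N)
    (f : CuspForm (CongruenceSubgroup.Gamma0 N) k) :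
    ⇑(CuspForm.heckeTLin k hp hpN f) =
      ∑ j ∈ Finset.range p, ⇑f ∣[k] ModularForm.heckeMatrix p j +
        ⇑f ∣[k] ModularForm.heckeDiagMatrix p := by
  rw [CuspForm.coe_heckeTLin_apply, ModularForm.heckeT_def]

theorem coe_heckeULin {N : ℕ} [NeZero N] {p : ℕ} (k : ℤ) (hpN : p ∣ N)
    (f : CuspForm (CongruenceSubgroup.Gamma0 N) k) :
    ⇑(CuspForm.heckeULin k hpN f) = ∑ j ∈ Finset.range p, ⇑f ∣[k] ModularForm.heckeMatrix p j := by
  rw [CuspForm.coe_heckeULin_apply, ModularForm.heckeU_def]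

theorem smul_slash_of_det_pos (k : ℤ) (γ : GL (Fin 2) ℝ) (hγ : 0 < γ.det.val) (c : ℂ)
    (φ : ℍ → ℂ) : (c • φ) ∣[k] γ = c • (φ ∣[k] γ) := by
  have hσ : σ γ = .refl ℝ ℂ := by rw [σ, if_pos hγ]
  rw [ModularForm.smul_slash, hσ, ContinuousAlgEquiv.refl_apply]

theorem mulVecC_int {α : GL (Fin 2) ℚ} (hα : ∀ a b, ∃ m : ℤ, α a b = (m : ℚ)) (v : Fin 2 → ℤ) :
    ∃ w : Fin 2 → ℤ, mulVecC (rmap α) (fun i => (v i : ℂ)) = fun i => (w i : ℂ) := by
  choose m hm using hα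
  refine ⟨fun i => m i 0 * v 0 + m i 1 * v 1, ?_⟩
  funext i
  have h0 : ((rmap α) i 0 : ℝ) = ((m i 0 : ℤ) : ℝ) := by
    simp [rmap, hm i 0]
  have h1 : ((rmap α) i 1 : ℝ) = ((m i 1 : ℤ) : ℝ) := by
    simp [rmap, hm i 1]
  simp only [mulVecC, h0, h1]
  push_cast
  ring

end Fermat.Agent.S22
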