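import Fermat.Agent.S22.LatInv

set_option autoImplicit false

open Complex Filter Topology MvPolynomial
open UpperHalfPlane hiding I
open scoped Real Manifold ModularForm MatrixGroups

namespace Fermat.Agent.S22

/-- The coefficient functionals of the symbols along the edges `(h, h S)`. -/
noncomputable def latFG_coeff (N : ℕ) [NeZero N] (n : ℕ) (h : SL(2, ℤ)) (j : ℕ) :
    Module.Dual ℂ (CuspForm (CongruenceSubgroup.Gamma0 N) ((n : ℤ) + 2)) where
  toFun f := coeff (Finsupp.single 0 j + Finsupp.single 1 (n - j))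
    (Lam n ⇑f (Matrix.SpecialLinearGroup.mapGL ℚ h)
      (Matrix.SpecialLinearGroup.mapGL ℚ (h * ModularGroup.S)))
  map_add' f g := by
    rw [FunLike.coe_add, Lam_add_left (cc_cuspForm f) (cc_cuspForm g) (det_mapGL_pos _)
      (det_mapGL_pos _), coeff_add]
  map_smul' c f := by
    rw [FunLike.coe_smul, Lam_const_smul (cc_cuspForm f) c (det_mapGL_pos _) (det_mapGL_pos _),
      coeff_smul, RingHom.id_apply]

/-- The finitely generated lattice containing all symbols. -/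
noncomputable def latFG_L0 (N : ℕ) [NeZero N] (n : ℕ) (R : Finset SL(2, ℤ)) :
    Submodule ℤ (Module.Dual ℂ (CuspForm (CongruenceSubgroup.Gamma0 N) ((n : ℤ) + 2))) :=
  Submodule.span ℤ ((fun x : SL(2, ℤ) × ℕ => latFG_coeff N n x.1 x.2) ''
    ((R ×ˢ Finset.range (n + 1) : Finset (SL(2, ℤ) × ℕ)) : Set (SL(2, ℤ) × ℕ)))

theorem latFG_L0_fg (N : ℕ) [NeZero N] (n : ℕ) (R : Finset SL(2, ℤ)) : (latFG_L0 N n R).FG :=
  Submodule.fg_span (Set.Finite.image _ (Finset.finite_toSet _))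

theorem latFG_coeff_mem (N : ℕ) [NeZero N] (n : ℕ) {R : Finset SL(2, ℤ)} {h : SL(2, ℤ)}
    (hh : h ∈ R) {j : ℕ} (hj : j ∈ Finset.range (n + 1)) : latFG_coeff N n h j ∈ latFG_L0 N n R :=
  Submodule.subset_span ⟨(h, j), Finset.mem_coe.mpr (Finset.mem_product.mpr ⟨hh, hj⟩), rfl⟩

/-- The `S`-edges lie in the lattice `L₀`. -/
theorem latFG_S_step (N : ℕ) [NeZero N] (n : ℕ) {R : Finset SL(2, ℤ)}
    (hR : ∀ g : SL(2, ℤ), ∃ γ ∈ CongruenceSubgroup.Gamma0 N, ∃ h ∈ R, g = γ * h)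
    (g : SL(2, ℤ)) (v : Fin 2 → ℤ) :
    ∃ l ∈ latFG_L0 N n R, ∀ f : CuspForm (CongruenceSubgroup.Gamma0 N) ((n : ℤ) + 2),
      l f = eval (fun i => (v i : ℂ)) (Lam n ⇑f (Matrix.SpecialLinearGroup.mapGL ℚ g)
        (Matrix.SpecialLinearGroup.mapGL ℚ (g * ModularGroup.S))) := by
  obtain ⟨γ, hγ, h, hh, rfl⟩ := hR g
  obtain ⟨w, hw⟩ := eval_Lam_Gamma0_mul N n hγ (det_mapGL_pos h)
    (det_mapGL_pos (h * ModularGroup.S)) v
  refine ⟨∑ j ∈ Finset.range (n + 1), (w 0 ^ j * w 1 ^ (n - j) : ℤ) • latFG_coeff N n h j,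
    Submodule.sum_mem _ fun j hj => Submodule.smul_mem _ _ (latFG_coeff_mem N n hh hj), fun f => ?_⟩
  rw [mul_assoc, map_mul, map_mul, hw f, eval_int_of_isHomogeneous (isHomogeneous_Lam n _ _ _) w,
    LinearMap.sum_apply]
  refine Finset.sum_congr rfl fun j _ => ?_
  rw [LinearMap.smul_apply, zsmul_eq_mul]
  rfl

/-- The additive group of symbol-valued maps all of whose integer evaluations lie in `L₀`. -/
def latFG_sub (N : ℕ) [NeZero N] (n : ℕ) (R : Finset SL(2, ℤ)) :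
    AddSubgroup (CuspForm (CongruenceSubgroup.Gamma0 N) ((n : ℤ) + 2) → MvPolynomial (Fin 2) ℂ) where
  carrier := {Ψ | ∀ v : Fin 2 → ℤ, ∃ l ∈ latFG_L0 N n R, ∀ f, l f = eval (fun i => (v i : ℂ)) (Ψ f)}
  zero_mem' := fun v => ⟨0, Submodule.zero_mem _, fun f => by simp⟩
  add_mem' := by
    intro Ψ Ψ' hΨ hΨ' v
    obtain ⟨l, hl, hl'⟩ := hΨ v
    obtain ⟨m, hm, hm'⟩ := hΨ' v
    exact ⟨l + m, Submodule.add_mem _ hl hm, fun f => by
      rw [LinearMap.add_apply, hl', hm', Pi.add_apply, map_add]⟩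
  neg_mem' := by
    intro Ψ hΨ v
    obtain ⟨l, hl, hl'⟩ := hΨ v
    exact ⟨-l, Submodule.neg_mem _ hl, fun f => by
      rw [LinearMap.neg_apply, hl', Pi.neg_apply, map_neg]⟩

theorem latFG_chain (N : ℕ) [NeZero N] (n : ℕ) {R : Finset SL(2, ℤ)}
    (hR : ∀ g : SL(2, ℤ), ∃ γ ∈ CongruenceSubgroup.Gamma0 N, ∃ h ∈ R, g = γ * h)
    (g g' : SL(2, ℤ)) (v : Fin 2 → ℤ) :
    ∃ l ∈ latFG_L0 N n R, ∀ f : CuspForm (CongruenceSubgroup.Gamma0 N) ((n : ℤ) + 2),
      l f = eval (fun i => (v i : ℂ)) (Lam n ⇑f (Matrix.SpecialLinearGroup.mapGL ℚ g)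
        (Matrix.SpecialLinearGroup.mapGL ℚ g')) := by
  have key := chain_SL2Z
    (fun g g' : SL(2, ℤ) => fun f : CuspForm (CongruenceSubgroup.Gamma0 N) ((n : ℤ) + 2) =>
      Lam n ⇑f (Matrix.SpecialLinearGroup.mapGL ℚ g) (Matrix.SpecialLinearGroup.mapGL ℚ g'))
    (fun g g' g'' => funext fun f => Lam_add n _ _ _ _) (latFG_sub N n R)
    (fun g v => latFG_S_step N n hR g v)
    (fun g => by
      have h0 : (fun f : CuspForm (CongruenceSubgroup.Gamma0 N) ((n : ℤ) + 2) =>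
          Lam n ⇑f (Matrix.SpecialLinearGroup.mapGL ℚ g)
            (Matrix.SpecialLinearGroup.mapGL ℚ (g * ModularGroup.T))) = 0 :=
        funext fun f => Lam_mapGL_T (cc_cuspForm f) g
      rw [h0]
      exact AddSubgroup.zero_mem _)
  exact key g g' v

theorem symL_fg (N : ℕ) [NeZero N] (n : ℕ) : (symL N n).FG := by
  obtain ⟨R, hR⟩ := exists_finite_coset_reps N
  refine Submodule.FG.of_le (latFG_L0_fg N n R) (Submodule.span_le.mpr ?_)
  rintro μ ⟨δ, δ', hδ, hδ', v, rfl⟩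
  obtain ⟨g, g', hgg⟩ := exists_Lam_eq_mapGL n hδ hδ'
  obtain ⟨l, hl, hl'⟩ := latFG_chain N n hR g g' v
  have : mu N n δ δ' hδ hδ' v = l := by
    refine LinearMap.ext fun f => ?_
    rw [mu_apply, hl', hgg _ (cc_cuspForm f)]
  rw [SetLike.mem_coe, this]
  exact hl

end Fermat.Agent.S22
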