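import Fermat.Agent.S22_LatDef

set_option autoImplicit false

open Complex Filter Topology MvPolynomial
open UpperHalfPlane hiding I
open scoped Real Manifold ModularForm MatrixGroups

namespace Fermat.Agent.S22

theorem det_mapGL_pos (g : SL(2, ℤ)) :
    0 < (Matrix.SpecialLinearGroup.mapGL ℚ g).det.val := by
  simp

theorem mapGL_T_10 : (Matrix.SpecialLinearGroup.mapGL ℚ ModularGroup.T) 1 0 = 0 := by
  simp [ModularGroup.coe_T]

/-- Translating by `T` does not move the cusp. -/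
theorem Lam_mapGL_T {n : ℕ} {φ : ℍ → ℂ} (h : Cc ((n : ℤ) + 2) φ) (g : SL(2, ℤ)) :
    Lam n φ (Matrix.SpecialLinearGroup.mapGL ℚ g)
      (Matrix.SpecialLinearGroup.mapGL ℚ (g * ModularGroup.T)) = 0 := by
  have h1 := Lam_mul_upper h (δ := Matrix.SpecialLinearGroup.mapGL ℚ g)
    (δ' := Matrix.SpecialLinearGroup.mapGL ℚ g) (u := 1)
    (u' := Matrix.SpecialLinearGroup.mapGL ℚ ModularGroup.T) (det_mapGL_pos g) (det_mapGL_pos g)
    (by simp) (by simp) (det_mapGL_pos _) mapGL_T_10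
  rw [mul_one, Lam_self, ← map_mul] at h1
  exact h1

/-- Every symbol is a symbol between `SL(2, ℤ)`-translates of `∞`. -/
theorem exists_Lam_eq_mapGL (n : ℕ) {δ δ' : GL (Fin 2) ℚ} (hδ : 0 < δ.det.val)
    (hδ' : 0 < δ'.det.val) :
    ∃ g g' : SL(2, ℤ), ∀ φ : ℍ → ℂ, Cc ((n : ℤ) + 2) φ →
      Lam n φ δ δ' = Lam n φ (Matrix.SpecialLinearGroup.mapGL ℚ g)
        (Matrix.SpecialLinearGroup.mapGL ℚ g') := by
  obtain ⟨g, u, hu10, rfl⟩ := exists_SL2Z_mul_upper δ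
  obtain ⟨g', u', hu'10, rfl⟩ := exists_SL2Z_mul_upper δ'
  refine ⟨g, g', fun φ h => ?_⟩
  have hu : 0 < u.det.val := by
    rw [map_mul, Units.val_mul] at hδ
    simpa using hδ
  have hu' : 0 < u'.det.val := by
    rw [map_mul, Units.val_mul] at hδ'
    simpa using hδ'
  exact Lam_mul_upper h (det_mapGL_pos g) (det_mapGL_pos g') hu hu10 hu' hu'10

theorem slash_mapGL_Gamma0 {N : ℕ} [NeZero N] {k : ℤ}
    (f : CuspForm (CongruenceSubgroup.Gamma0 N) k) {γ : SL(2, ℤ)}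
    (hγ : γ ∈ CongruenceSubgroup.Gamma0 N) :
    ⇑f ∣[k] rmap (Matrix.SpecialLinearGroup.mapGL ℚ γ) = ⇑f := by
  rw [rmap_mapGL]
  exact SlashInvariantFormClass.slash_action_eq f _ ⟨γ, hγ, rfl⟩

/-- `Γ₀(N)`-invariance of the symbols of a cusp form. -/
theorem Lam_Gamma0_mul {N : ℕ} [NeZero N] (n : ℕ)
    (f : CuspForm (CongruenceSubgroup.Gamma0 N) ((n : ℤ) + 2)) {γ : SL(2, ℤ)}
    (hγ : γ ∈ CongruenceSubgroup.Gamma0 N) {δ δ' : GL (Fin 2) ℚ} (hδ : 0 < δ.det.val)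
    (hδ' : 0 < δ'.det.val) :
    Lam n ⇑f (Matrix.SpecialLinearGroup.mapGL ℚ γ * δ) (Matrix.SpecialLinearGroup.mapGL ℚ γ * δ') =
      subst (rmap (Matrix.SpecialLinearGroup.mapGL ℚ γ⁻¹)) (Lam n ⇑f δ δ') := by
  have h1 := Lam_slash (cc_cuspForm f) (det_mapGL_pos γ) hδ hδ'
  rw [slash_mapGL_Gamma0 f hγ] at h1
  rw [h1, subst_subst, ← map_mul, ← map_mul, mul_inv_cancel, map_one, map_one, subst_one]

theorem mapGL_int (g : SL(2, ℤ)) (a b : Fin 2) :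
    ∃ m : ℤ, (Matrix.SpecialLinearGroup.mapGL ℚ g) a b = (m : ℚ) :=
  ⟨g a b, by simp⟩

/-- Integer-point version of `Lam_Gamma0_mul`. -/
theorem eval_Lam_Gamma0_mul (N : ℕ) [NeZero N] (n : ℕ) {γ : SL(2, ℤ)}
    (hγ : γ ∈ CongruenceSubgroup.Gamma0 N) {δ δ' : GL (Fin 2) ℚ} (hδ : 0 < δ.det.val)
    (hδ' : 0 < δ'.det.val) (v : Fin 2 → ℤ) :
    ∃ w : Fin 2 → ℤ, ∀ f : CuspForm (CongruenceSubgroup.Gamma0 N) ((n : ℤ) + 2),
      eval (fun i => (v i : ℂ)) (Lam n ⇑f (Matrix.SpecialLinearGroup.mapGL ℚ γ * δ)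
        (Matrix.SpecialLinearGroup.mapGL ℚ γ * δ')) =
      eval (fun i => (w i : ℂ)) (Lam n ⇑f δ δ') := by
  obtain ⟨w, hw⟩ := mulVecC_int (mapGL_int γ⁻¹) v
  refine ⟨w, fun f => ?_⟩
  rw [Lam_Gamma0_mul n f hγ hδ hδ', eval_subst, hw]

end Fermat.Agent.S22
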