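import Fermat.Agent.S22_Poly

set_option autoImplicit false

open Complex Filter Topology MvPolynomial
open UpperHalfPlane hiding I
open scoped Real Manifold ModularForm MatrixGroups

namespace Fermat.Agent.S22

theorem isHomogeneous_subst (γ : GL (Fin 2) ℝ) {n : ℕ} {P : MvPolynomial (Fin 2) ℂ}
    (hP : P.IsHomogeneous n) : (subst γ P).IsHomogeneous n := by
  have h := hP.aeval (S := ℂ) (n := 1)
    (fun i : Fin 2 => (C ((γ i 0 : ℝ) : ℂ) * X 0 + C ((γ i 1 : ℝ) : ℂ) * X 1 :
      MvPolynomial (Fin 2) ℂ)) (fun i => by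
      refine IsHomogeneous.add ?_ ?_
      · simpa using (isHomogeneous_C (Fin 2) ((γ i 0 : ℝ) : ℂ)).mul (isHomogeneous_X ℂ (0 : Fin 2))
      · simpa using (isHomogeneous_C (Fin 2) ((γ i 1 : ℝ) : ℂ)).mul (isHomogeneous_X ℂ (1 : Fin 2)))
  rw [one_mul] at h
  exact h

theorem eq_zero_of_forall_eval_int {P : MvPolynomial (Fin 2) ℂ}
    (h : ∀ v : Fin 2 → ℤ, eval (fun i => (v i : ℂ)) P = 0) : P = 0 := by
  refine MvPolynomial.funext_set (fun _ : Fin 2 => Set.range (Int.cast : ℤ → ℂ)) (fun _ => ?_) ?_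
  · exact Set.infinite_range_of_injective Int.cast_injective
  · intro x hx
    have hx' : ∀ i, ∃ m : ℤ, (m : ℂ) = x i := fun i => hx i (Set.mem_univ i)
    choose v hv using hx'
    have : x = fun i => (v i : ℂ) := funext fun i => (hv i).symm
    rw [this, h v, map_zero]

theorem eval_int_of_isHomogeneous {n : ℕ} {P : MvPolynomial (Fin 2) ℂ} (hP : P.IsHomogeneous n)
    (v : Fin 2 → ℤ) :
    eval (fun i => (v i : ℂ)) P = ∑ j ∈ Finset.range (n + 1),
      ((v 0 ^ j * v 1 ^ (n - j) : ℤ) : ℂ) *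
        coeff (Finsupp.single 0 j + Finsupp.single 1 (n - j)) P := by
  classical
  set e : ℕ → (Fin 2 →₀ ℕ) := fun j => Finsupp.single 0 j + Finsupp.single 1 (n - j) with he
  have hinj : Set.InjOn e (Finset.range (n + 1)) := by
    intro a _ b _ hab
    have := congrArg (fun d : Fin 2 →₀ ℕ => d 0) hab
    simpa [he] using this
  have hsub : P.support ⊆ (Finset.range (n + 1)).image e := by
    intro d hd
    have hdeg : d.degree = n := by
      by_contra hne
      exact (mem_support_iff.mp hd) (hP.coeff_eq_zero hne)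
    have hdeg' : d 0 + d 1 = n := by
      rw [← hdeg, Finsupp.degree_eq_sum, Fin.sum_univ_two]
    rw [Finset.mem_image]
    refine ⟨d 0, Finset.mem_range.mpr (by omega), ?_⟩
    ext i
    fin_cases i
    · simp [he]
    · simp [he]; omega
  rw [eval_eq', Finset.sum_subset hsub
    (fun d _ hd => by rw [notMem_support_iff.mp hd, zero_mul]), Finset.sum_image hinj]
  refine Finset.sum_congr rfl fun j hj => ?_
  simp [he, Fin.prod_univ_two]
  ring

end Fermat.Agent.S22
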