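import Mathlib.NumberTheory.ModularForms.Cusps
import Fermat.Agent.S22_EE
import Fermat.Prelude.Def_ModularForm_HeckeOperator

/-!
# S22, task T2: rational matrices

* `exists_SL2Z_mul_upper`: every `δ ∈ GL₂(ℚ)` is `g * u` with `g ∈ SL₂(ℤ)`, `u` upper triangular.
* `rmap_mapGL`, `det_rmap_pos`: compatibility of `rmap : GL₂(ℚ) → GL₂(ℝ)`.
* `exists_heckeMatrix_rat`, `exists_heckeDiagMatrix_rat`: the Hecke representatives are images of
  rational matrices with integer entries and positive determinant.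
-/

set_option autoImplicit false

open scoped MatrixGroups

namespace Fermat.Agent.S22

theorem exists_SL2Z_mul_upper (δ : GL (Fin 2) ℚ) :
    ∃ (g : SL(2, ℤ)) (u : GL (Fin 2) ℚ), u 1 0 = 0 ∧
      δ = Matrix.SpecialLinearGroup.mapGL ℚ g * u := by
  obtain ⟨g, hg⟩ := OnePoint.exists_mem_SL2 ℤ (δ • (OnePoint.infty : OnePoint ℚ))
  refine ⟨g, (Matrix.SpecialLinearGroup.mapGL ℚ g)⁻¹ * δ, ?_, by group⟩
  rw [← OnePoint.smul_infty_eq_self_iff, mul_smul, ← hg, inv_smul_smul]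

theorem rmap_mapGL (g : SL(2, ℤ)) :
    rmap (Matrix.SpecialLinearGroup.mapGL ℚ g) = Matrix.SpecialLinearGroup.mapGL ℝ g := by
  ext i j
  simp [rmap]

theorem det_rmap (δ : GL (Fin 2) ℚ) : ((rmap δ).det.val : ℝ) = ((δ.det.val : ℚ) : ℝ) := by
  rw [Matrix.GeneralLinearGroup.val_det_apply, Matrix.GeneralLinearGroup.val_det_apply,
    Matrix.det_fin_two, Matrix.det_fin_two]
  simp [rmap]

theorem det_rmap_pos {δ : GL (Fin 2) ℚ} (h : 0 < δ.det.val) : 0 < (rmap δ).det.val := by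
  rw [det_rmap]
  exact_mod_cast h

/-- The rational upper triangular matrix `!![a, b; 0, d]`. -/
noncomputable def upperRat (a b d : ℚ) (had : a * d ≠ 0) : GL (Fin 2) ℚ :=
  Matrix.GeneralLinearGroup.mkOfDetNeZero !![a, b; 0, d]
    (by rwa [Matrix.det_fin_two_of, mul_zero, sub_zero])

theorem val_upperRat (a b d : ℚ) (had : a * d ≠ 0) :
    ((upperRat a b d had : GL (Fin 2) ℚ) : Matrix (Fin 2) (Fin 2) ℚ) = !![a, b; 0, d] := rfl

theorem det_upperRat (a b d : ℚ) (had : a * d ≠ 0) : (upperRat a b d had).det.val = a * d := by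
  rw [Matrix.GeneralLinearGroup.val_det_apply, val_upperRat, Matrix.det_fin_two_of]
  ring

theorem rmap_upperRat (a b d : ℚ) (had : a * d ≠ 0) :
    rmap (upperRat a b d had) =
      ModularForm.upperTriangularGL (a : ℝ) (b : ℝ) (d : ℝ) (by exact_mod_cast had) := by
  ext i j
  fin_cases i <;> fin_cases j <;> simp [rmap, upperRat, ModularForm.upperTriangularGL]

theorem exists_heckeMatrix_rat {p : ℕ} (hp : p ≠ 0) (j : ℕ) :
    ∃ α : GL (Fin 2) ℚ, 0 < α.det.val ∧ rmap α = ModularForm.heckeMatrix p j ∧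
      ∀ a b, ∃ m : ℤ, α a b = (m : ℚ) := by
  have hp' : (1 : ℚ) * (p : ℚ) ≠ 0 := by
    rw [one_mul]; exact_mod_cast hp
  refine ⟨upperRat 1 j p hp', ?_, ?_, ?_⟩
  · rw [det_upperRat, one_mul]
    exact_mod_cast Nat.pos_of_ne_zero hp
  · rw [rmap_upperRat]
    ext a b
    rw [ModularForm.val_heckeMatrix hp, ModularForm.val_upperTriangularGL]
    fin_cases a <;> fin_cases b <;> simp
  · intro a b
    fin_cases a <;> fin_cases b
    · exact ⟨1, by simp [upperRat]⟩
    · exact ⟨j, by simp [upperRat]⟩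
    · exact ⟨0, by simp [upperRat]⟩
    · exact ⟨p, by simp [upperRat]⟩

theorem exists_heckeDiagMatrix_rat {p : ℕ} (hp : p ≠ 0) :
    ∃ α : GL (Fin 2) ℚ, 0 < α.det.val ∧ rmap α = ModularForm.heckeDiagMatrix p ∧
      ∀ a b, ∃ m : ℤ, α a b = (m : ℚ) := by
  have hp' : (p : ℚ) * (1 : ℚ) ≠ 0 := by
    rw [mul_one]; exact_mod_cast hp
  refine ⟨upperRat p 0 1 hp', ?_, ?_, ?_⟩
  · rw [det_upperRat, mul_one]
    exact_mod_cast Nat.pos_of_ne_zero hp
  · rw [rmap_upperRat]
    ext a b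
    rw [ModularForm.val_heckeDiagMatrix hp, ModularForm.val_upperTriangularGL]
    fin_cases a <;> fin_cases b <;> simp
  · intro a b
    fin_cases a <;> fin_cases b
    · exact ⟨p, by simp [upperRat]⟩
    · exact ⟨0, by simp [upperRat]⟩
    · exact ⟨0, by simp [upperRat]⟩
    · exact ⟨1, by simp [upperRat]⟩

end Fermat.Agent.S22
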