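import Fermat.Agent.S22_EE
import Fermat.Agent.S22.Trivial

set_option autoImplicit false

open Complex Filter Topology MvPolynomial
open UpperHalfPlane hiding I
open scoped Real Manifold ModularForm MatrixGroups

namespace Fermat.Agent.S22

/-- If an iterated primitive of a decaying function vanishes, so does the function. -/
theorem Dec.eq_zero_of_iterate_prim_eq_zero {φ : ℍ → ℂ} (h : Dec φ) (m : ℕ)
    (h0 : prim^[m] φ = 0) : φ = 0 := by
  induction m with
  | zero => exact h0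
  | succ m ih =>
    apply ih
    rw [Function.iterate_succ_apply'] at h0
    have hd : HasDerivH (prim (prim^[m] φ)) (prim^[m] φ) := (h.iterate_prim m).hasDerivH_prim
    rw [h0] at hd
    funext τ
    have h1 : HasDerivAt ((0 : ℍ → ℂ) ∘ ofComplex) (prim^[m] φ τ) (τ : ℂ) := hd τ
    have h2 : HasDerivAt ((0 : ℍ → ℂ) ∘ ofComplex) 0 (τ : ℂ) := by
      have : ((0 : ℍ → ℂ) ∘ ofComplex) = fun _ : ℂ => (0 : ℂ) := by
        funext z; simp
      rw [this]
      exact hasDerivAt_const _ _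
    exact h1.unique h2

/-- Evaluating `EE n ψ τ` at the point `(τ, 1)` only keeps the top iterated primitive. -/
theorem eval_EE_diag (n : ℕ) (ψ : ℍ → ℂ) (τ : ℍ) :
    eval ![(τ : ℂ), 1] (EE n ψ τ) = (n.factorial : ℂ) * prim^[n + 1] ψ τ := by
  rw [eval_EE, Finset.sum_range_succ]
  have hz : ∀ m ∈ Finset.range n,
      (n.descFactorial m : ℂ) * prim^[m + 1] ψ τ * (![(τ : ℂ), 1] 1) ^ m *
        ((![(τ : ℂ), 1] 0) - (τ : ℂ) * (![(τ : ℂ), 1] 1)) ^ (n - m) = 0 := by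
    intro m hm
    have hpos : n - m ≠ 0 := by
      have := Finset.mem_range.mp hm
      omega
    simp [zero_pow hpos]
  rw [Finset.sum_eq_zero hz]
  simp [Nat.descFactorial_self]

/-- Evaluating `EE n ψ (g • τ)` at the point `g (τ, 1) = (num, denom)`. -/
theorem eval_EE_num_denom (n : ℕ) (ψ : ℍ → ℂ) (g : GL (Fin 2) ℝ) (hg : 0 < g.det.val) (τ : ℍ) :
    eval (mulVecC g ![(τ : ℂ), 1]) (EE n ψ (g • τ)) =
      (n.factorial : ℂ) * prim^[n + 1] ψ (g • τ) * denom g τ ^ n := by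
  have hD : denom g τ ≠ 0 := denom_ne_zero _ τ
  have h0 : mulVecC g ![(τ : ℂ), 1] 0 = num g τ := by
    simp [mulVecC, num]
  have h1 : mulVecC g ![(τ : ℂ), 1] 1 = denom g τ := by
    simp [mulVecC, denom]
  have hkey : mulVecC g ![(τ : ℂ), 1] 0 -
      ((g • τ : ℍ) : ℂ) * mulVecC g ![(τ : ℂ), 1] 1 = 0 := by
    rw [h0, h1, coe_smul_of_det_pos hg]
    field_simp
    ring
  rw [eval_EE, Finset.sum_range_succ]
  have hz : ∀ m ∈ Finset.range n,
      (n.descFactorial m : ℂ) * prim^[m + 1] ψ (g • τ) *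
        (mulVecC g ![(τ : ℂ), 1] 1) ^ m *
        (mulVecC g ![(τ : ℂ), 1] 0 -
          ((g • τ : ℍ) : ℂ) * mulVecC g ![(τ : ℂ), 1] 1) ^ (n - m)
        = 0 := by
    intro m hm
    have hpos' : n - m ≠ 0 := by
      have := Finset.mem_range.mp hm
      omega
    rw [hkey, zero_pow hpos', mul_zero]
  rw [Finset.sum_eq_zero hz, zero_add, Nat.descFactorial_self, Nat.sub_self, pow_zero, mul_one, h1]

/-- **Separation.** Let `f` be a cusp form of weight `n + 2` on `Γ₀(N)` all of whose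
`SL(2, ℤ)`-translates are `Dec`.  If the normalised polynomial primitives are
equivariant, `EE n (f ∣ g) = act g (EE n f)` for all `g ∈ SL(2, ℤ)` (i.e. all modular symbols
vanish), then `f = 0`. -/
theorem eq_zero_of_EE_equivariant {N : ℕ} [NeZero N] (n : ℕ)
    (f : CuspForm (CongruenceSubgroup.Gamma0 N) ((n : ℤ) + 2))
    (hdec : ∀ g : SL(2, ℤ), Dec (⇑f ∣[(n : ℤ) + 2] (Matrix.SpecialLinearGroup.mapGL ℝ g)))
    (h : ∀ g : SL(2, ℤ), EE n (⇑f ∣[(n : ℤ) + 2] (Matrix.SpecialLinearGroup.mapGL ℝ g)) =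
      act (Matrix.SpecialLinearGroup.mapGL ℝ g) (EE n ⇑f)) :
    f = 0 := by
  have hdec1 : Dec (f : ℍ → ℂ) := by
    have := hdec 1
    rwa [map_one, SlashAction.slash_one] at this
  set H : ℍ → ℂ := prim^[n + 1] (f : ℍ → ℂ) with hH
  have hfact : (n.factorial : ℂ) ≠ 0 := by exact_mod_cast n.factorial_ne_zero
  -- transformation of `H` under `SL(2, ℤ)`
  have hslash : ∀ g : SL(2, ℤ), H ∣[-(n : ℤ)] g =
      prim^[n + 1] ((f : ℍ → ℂ) ∣[(n : ℤ) + 2] (Matrix.SpecialLinearGroup.mapGL ℝ g)) := by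
    intro g
    funext τ
    have hpos : 0 < (Matrix.SpecialLinearGroup.mapGL ℝ g : GL (Fin 2) ℝ).det.val := by simp
    have h1 := eval_EE_num_denom n (f : ℍ → ℂ) (Matrix.SpecialLinearGroup.mapGL ℝ g) hpos τ
    have h2 : eval ![(τ : ℂ), 1] (act (Matrix.SpecialLinearGroup.mapGL ℝ g) (EE n ⇑f) τ) =
        eval (mulVecC (Matrix.SpecialLinearGroup.mapGL ℝ g) ![(τ : ℂ), 1])
          (EE n ⇑f ((Matrix.SpecialLinearGroup.mapGL ℝ g : GL (Fin 2) ℝ) • τ)) := by
      simp only [act, eval_subst]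
    rw [← h2, ← h g, eval_EE_diag] at h1
    rw [ModularForm.SL_slash_apply, neg_neg, zpow_natCast]
    have h3 : (n.factorial : ℂ) *
        prim^[n + 1] ((f : ℍ → ℂ) ∣[(n : ℤ) + 2] (Matrix.SpecialLinearGroup.mapGL ℝ g)) τ =
        (n.factorial : ℂ) * (H ((Matrix.SpecialLinearGroup.mapGL ℝ g : GL (Fin 2) ℝ) • τ) *
          denom (Matrix.SpecialLinearGroup.mapGL ℝ g : GL (Fin 2) ℝ) τ ^ n) := by
      rw [h1, mul_assoc]
    exact (mul_left_cancel₀ hfact h3).symm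
  have hinv : ∀ γ ∈ CongruenceSubgroup.Gamma0 N, H ∣[-(n : ℤ)] γ = H := by
    intro γ hγ
    rw [hslash γ]
    have : (f : ℍ → ℂ) ∣[(n : ℤ) + 2] (Matrix.SpecialLinearGroup.mapGL ℝ γ) = f :=
      SlashInvariantFormClass.slash_action_eq f _ (Subgroup.mem_map_of_mem _ hγ)
    rw [this]
  have hzero : ∀ g : SL(2, ℤ), IsZeroAtImInfty (H ∣[-(n : ℤ)] g) := by
    intro g
    rw [hslash g]
    exact ((hdec g).iterate_prim (n + 1)).zero
  have hH0 : H = 0 :=
    eq_zero_of_slash_invariant_of_weight_nonpos (N := N) (w := -(n : ℤ))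
      (by simp) H (hdec1.iterate_prim (n + 1)).holo hinv hzero
  have hf0 : (f : ℍ → ℂ) = 0 := hdec1.eq_zero_of_iterate_prim_eq_zero (n + 1) hH0
  ext τ
  simpa using congrFun hf0 τ

end Fermat.Agent.S22
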